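import Mathlib

/-!
# PROGRAMME I, shared leaf L8-gen, part 1: a real absolute value for a rank one valuation subring

`O` a valuation subring of a field `F` which is archimedean in the element form of main's
`BR.TwoVal.Arch` and nontrivial.  Then there is a nonarchimedean absolute value
`v : AbsoluteValue F ℝ` with unit ball `O` (`exists_absoluteValue`).  Mathlib's Hölder theorem is
`Valuation.nonempty_rankOne_iff_mulArchimedean`.
-/

set_option autoImplicit false

noncomputable section

namespace Fermat.Agent.FF3.Compl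

open MonoidWithZeroHom MonoidWithZeroHom.ValueGroup₀ Valuation

variable {F : Type*} [Field F] (O : ValuationSubring F)

/-- element form of "rank one" (same as `BR.TwoVal.Arch`) -/
def ArchE : Prop := ∀ x : F, ∀ u ∈ O.nonunits, u ≠ 0 → ∃ n : ℕ, x * u ^ n ∈ O

variable {O}

theorem isNontrivial_valuation (hnt : ∃ u ∈ O.nonunits, u ≠ 0) : O.valuation.IsNontrivial := by
  obtain ⟨u, hu, hu0⟩ := hnt
  refine ⟨⟨u, (Valuation.ne_zero_iff _).mpr hu0, ?_⟩⟩
  exact ne_of_lt ((O.mem_nonunits_iff).mp hu)

theorem mulArchimedean_valueGroup₀ (harch : ArchE O) :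
    MulArchimedean (ValueGroup₀ (.ofClass O.valuation)) := by
  refine ⟨fun x y hy => ?_⟩
  obtain ⟨a, ha⟩ := ValueGroup₀.restrict₀_surjective _ x
  obtain ⟨b, hb⟩ := ValueGroup₀.restrict₀_surjective _ y
  have ha' : O.valuation.restrict a = x := ha
  have hb' : O.valuation.restrict b = y := hb
  rw [← hb'] at hy
  have hb1 : 1 < O.valuation b := by
    have := (Valuation.restrict_lt_iff (v := O.valuation) (x := 1) (y := b))
    rw [map_one, map_one] at this
    exact this.mp hy
  have hb0 : b ≠ 0 := by
    rintro rfl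
    rw [map_zero] at hb1
    exact not_lt_of_ge zero_le_one hb1
  have hu : b⁻¹ ∈ O.nonunits := by
    rw [O.mem_nonunits_iff, map_inv₀]
    exact inv_lt_one_of_one_lt₀ hb1
  obtain ⟨n, hn⟩ := harch a b⁻¹ hu (inv_ne_zero hb0)
  refine ⟨n, ?_⟩
  rw [← ha', ← hb', ← map_pow, Valuation.restrict_le_iff]
  have h1 : O.valuation (a * b⁻¹ ^ n) ≤ 1 := (O.valuation_le_one_iff _).mpr hn
  rw [map_mul, map_pow, map_inv₀, inv_pow] at h1
  have hbn : 0 < O.valuation b ^ n := pow_pos (lt_trans zero_lt_one hb1) n
  rw [map_pow]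
  calc O.valuation a = O.valuation a * (O.valuation b ^ n)⁻¹ * O.valuation b ^ n := by
        rw [mul_assoc, inv_mul_cancel₀ hbn.ne', mul_one]
    _ ≤ 1 * O.valuation b ^ n := by gcongr
    _ = O.valuation b ^ n := one_mul _

/-- **A real nonarchimedean absolute value with unit ball `O`.** -/
theorem exists_absoluteValue (harch : ArchE O) (hnt : ∃ u ∈ O.nonunits, u ≠ 0) :
    ∃ v : AbsoluteValue F ℝ, IsNonarchimedean v ∧ ∀ x : F, v x ≤ 1 ↔ x ∈ O := by
  have := isNontrivial_valuation hnt
  have := mulArchimedean_valueGroup₀ harch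
  obtain ⟨hr⟩ := (Valuation.nonempty_rankOne_iff_mulArchimedean (v := O.valuation)).mpr inferInstance
  let w : Valuation F (ValueGroup₀ (.ofClass O.valuation)) := O.valuation.restrict
  let h := RankOne.hom O.valuation
  have hmono : StrictMono h := RankOne.strictMono O.valuation
  let f : F → ℝ := fun x => ((h (w x) : NNReal) : ℝ)
  have hf_mul : ∀ x y, f (x * y) = f x * f y := fun x y => by
    simp only [f, map_mul, NNReal.coe_mul]
  have hf_max : ∀ x y, f (x + y) ≤ max (f x) (f y) := fun x y => by
    simp only [f]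
    rcases le_total (w x) (w y) with hxy | hxy
    · have h1 : w (x + y) ≤ w y := (w.map_add x y).trans (max_le hxy le_rfl)
      exact le_max_of_le_right (NNReal.coe_le_coe.mpr (hmono.monotone h1))
    · have h1 : w (x + y) ≤ w x := (w.map_add x y).trans (max_le le_rfl hxy)
      exact le_max_of_le_left (NNReal.coe_le_coe.mpr (hmono.monotone h1))
  refine ⟨⟨⟨f, hf_mul⟩, fun x => NNReal.coe_nonneg _, fun x => ?_, fun x y => ?_⟩, ?_, ?_⟩
  · show f x = 0 ↔ x = 0
    simp only [f, NNReal.coe_eq_zero]
    rw [RankOne.hom_eq_zero_iff, Valuation.zero_iff]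
  · exact (hf_max x y).trans (max_le_add_of_nonneg (NNReal.coe_nonneg _) (NNReal.coe_nonneg _))
  · intro x y
    exact hf_max x y
  · intro x
    show f x ≤ 1 ↔ x ∈ O
    simp only [f]
    rw [← NNReal.coe_one, NNReal.coe_le_coe, ← map_one h, hmono.le_iff_le,
      Valuation.restrict_le_one_iff, O.valuation_le_one_iff]

end Fermat.Agent.FF3.Compl
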