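import Mathlib
import Fermat.Agent.FF3.Compl.AbsVal

/-!
# PROGRAMME I, shared leaf L8-gen, part 2: the completion of a field at a nonarchimedean real
absolute value, as a complete ultrametric normed field

* `exists_completion` : for `v : AbsoluteValue F ℝ` nonarchimedean there are a complete ultrametric
  normed field `L` and `e : F →+* L` with `‖e x‖ = v x` and dense range (`L = v.Completion`);
* `exists_completion_of_valuationSubring` : the same for a rank one valuation subring `O` of `F`
  (element form `ArchE`), with `‖e x‖ ≤ 1 ↔ x ∈ O`.
-/

set_option autoImplicit false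

noncomputable section

namespace Fermat.Agent.FF3.Compl

universe u

variable {F : Type u} [Field F]

theorem norm_add_le_max_completion (v : AbsoluteValue F ℝ) (hv : IsNonarchimedean v)
    (x y : v.Completion) : ‖x + y‖ ≤ max ‖x‖ ‖y‖ := by
  refine UniformSpace.Completion.induction_on₂ x y ?_ ?_
  · exact isClosed_le (continuous_norm.comp continuous_add)
      ((continuous_norm.comp continuous_fst).max (continuous_norm.comp continuous_snd))
  · intro a b
    rw [← UniformSpace.Completion.coe_add, UniformSpace.Completion.norm_coe,
      UniformSpace.Completion.norm_coe, UniformSpace.Completion.norm_coe]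
    exact hv (WithAbs.equiv v a) (WithAbs.equiv v b)

/-- **The completion at a nonarchimedean absolute value.** -/
theorem exists_completion (v : AbsoluteValue F ℝ) (hv : IsNonarchimedean v) :
    ∃ (L : Type u) (_ : NormedField L) (_ : CompleteSpace L) (_ : IsUltrametricDist L)
      (e : F →+* L), (∀ x : F, ‖e x‖ = v x) ∧ DenseRange e := by
  refine ⟨v.Completion, inferInstance, inferInstance,
    IsUltrametricDist.isUltrametricDist_of_forall_norm_add_le_max_norm
      (norm_add_le_max_completion v hv),
    (UniformSpace.Completion.coeRingHom (α := WithAbs v)).comp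
      ((WithAbs.equiv v).symm : F →+* WithAbs v), ?_, ?_⟩
  · intro x
    show ‖((WithAbs.equiv v).symm x : v.Completion)‖ = v x
    rw [UniformSpace.Completion.norm_coe]
    rfl
  · have h1 : DenseRange ((↑) : WithAbs v → v.Completion) :=
      UniformSpace.Completion.denseRange_coe
    have h2 : Function.Surjective ((WithAbs.equiv v).symm : F → WithAbs v) :=
      (WithAbs.equiv v).symm.surjective
    exact h1.comp h2.denseRange (UniformSpace.Completion.continuous_coe _)

/-- **The completion at a rank one valuation subring.** -/
theorem exists_completion_of_valuationSubring (O : ValuationSubring F) (harch : ArchE O)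
    (hnt : ∃ u ∈ O.nonunits, u ≠ 0) :
    ∃ (L : Type u) (_ : NormedField L) (_ : CompleteSpace L) (_ : IsUltrametricDist L)
      (e : F →+* L), (∀ x : F, ‖e x‖ ≤ 1 ↔ x ∈ O) ∧ DenseRange e := by
  obtain ⟨v, hv, hO⟩ := exists_absoluteValue harch hnt
  obtain ⟨L, i1, i2, i3, e, he, hd⟩ := exists_completion v hv
  exact ⟨L, i1, i2, i3, e, fun x => by rw [he, hO], hd⟩

end Fermat.Agent.FF3.Compl
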