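import Mathlib

/-!
# PROGRAMME I, shared leaf L8-gen, part 3: extension of isometric ring homomorphisms along a dense
ring homomorphism

`e : F →+* L` with dense range into a normed field `L`, `g : F →+* L'` into a complete normed
field with `‖g x‖ = ‖e x‖`.  Then there is a unique isometric `ψ : L →+* L'` with `ψ ∘ e = g`
(`exists_extend_isometry`, `extend_unique`).
-/

set_option autoImplicit false

noncomputable section

namespace Fermat.Agent.FF3.Compl

variable {F : Type*} [Field F] {L L' : Type*} [NormedField L] [NormedField L'] [CompleteSpace L']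

/-- **Extension of an isometric ring homomorphism along a dense one.** -/
theorem exists_extend_isometry (e : F →+* L) (he : DenseRange e) (g : F →+* L')
    (hg : ∀ x : F, ‖g x‖ = ‖e x‖) :
    ∃ ψ : L →+* L', (∀ x : F, ψ (e x) = g x) ∧ (∀ y : L, ‖ψ y‖ = ‖y‖) ∧ Continuous ψ := by
  classical
  -- the range of `e` as a subring of `L`
  have hbij : Function.Bijective e.rangeRestrict :=
    ⟨fun x y hxy => e.injective (congrArg Subtype.val hxy), e.rangeRestrict_surjective⟩
  let E : F ≃+* e.range := RingEquiv.ofBijective e.rangeRestrict hbij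
  let g' : e.range →+* L' := g.comp (E.symm : e.range →+* F)
  have hE : ∀ s : e.range, e (E.symm s) = (s : L) := fun s => by
    have h1 : E (E.symm s) = s := E.apply_symm_apply s
    exact congrArg Subtype.val h1
  have hg' : ∀ s : e.range, ‖g' s‖ = ‖s‖ := fun s => by
    show ‖g (E.symm s)‖ = ‖(s : L)‖
    rw [hg, hE]
  have hiso : Isometry g' := AddMonoidHomClass.isometry_of_norm g' hg'
  have hi : IsUniformInducing (e.range.subtype) := isUniformEmbedding_subtype_val.isUniformInducing
  have hd : DenseRange (e.range.subtype) := by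
    have h1 : Set.range (e.range.subtype) = Set.range e := by
      ext y
      constructor
      · rintro ⟨s, rfl⟩
        exact s.2
      · rintro ⟨x, rfl⟩
        exact ⟨⟨e x, x, rfl⟩, rfl⟩
    rw [DenseRange, h1]
    exact he
  let ψ : L →+* L' := IsDenseInducing.extendRingHom hi hd hiso.uniformContinuous
  have hψc : Continuous ψ :=
    (uniformContinuous_uniformly_extend hi hd hiso.uniformContinuous).continuous
  have hψ : ∀ s : e.range, ψ (s : L) = g' s := fun s =>
    IsDenseInducing.extend_eq (hi.isDenseInducing hd) hiso.continuous s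
  refine ⟨ψ, fun x => ?_, fun y => ?_, hψc⟩
  · have h1 := hψ ⟨e x, x, rfl⟩
    rw [h1]
    show g (E.symm ⟨e x, x, rfl⟩) = g x
    congr 1
    apply e.injective
    rw [hE]
  · refine DenseRange.induction_on hd y ?_ ?_
    · exact isClosed_eq (continuous_norm.comp hψc) continuous_norm
    · intro s
      show ‖ψ (s : L)‖ = ‖(s : L)‖
      rw [hψ, hg']
      rfl

omit [CompleteSpace L'] in
/-- uniqueness of continuous extensions -/
theorem extend_unique (e : F →+* L) (he : DenseRange e) {ψ₁ ψ₂ : L →+* L'}
    (h₁ : Continuous ψ₁) (h₂ : Continuous ψ₂) (h : ∀ x : F, ψ₁ (e x) = ψ₂ (e x)) : ψ₁ = ψ₂ := by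
  ext y
  refine DenseRange.induction_on he y ?_ h
  exact isClosed_eq h₁ h₂

end Fermat.Agent.FF3.Compl
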